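/-
S41 / C4 [CSP] number theory helpers (helper4): Dirichlet + CRT, the prime of step (A3),
orders of squares, geometric sums, the `M`-primary part of an integer.  Mathlib only.
-/
import Mathlib

set_option autoImplicit false

namespace Fermat.Agent.S41.CSPNum4

open Finset

/-- coprimality is invariant under congruence -/
lemma coprime_of_modEq {m r r' : ℕ} (h : r ≡ r' [MOD m]) (hr : r'.Coprime m) : r.Coprime m := by
  unfold Nat.Coprime at *
  rw [Nat.ModEq.gcd_eq h]; exact hr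

/-- **Dirichlet + CRT**, two moduli. -/
theorem exists_prime_gt_modEq_modEq (B : ℕ) {m₁ m₂ r₁ r₂ : ℕ} (h₁ : m₁ ≠ 0) (h₂ : m₂ ≠ 0)
    (hc : m₁.Coprime m₂) (hr₁ : r₁.Coprime m₁) (hr₂ : r₂.Coprime m₂) :
    ∃ P, B < P ∧ P.Prime ∧ P ≡ r₁ [MOD m₁] ∧ P ≡ r₂ [MOD m₂] := by
  obtain ⟨r, hr1, hr2⟩ := Nat.chineseRemainder hc r₁ r₂
  have hrc : r.Coprime (m₁ * m₂) :=
    Nat.Coprime.mul_right (coprime_of_modEq hr1 hr₁) (coprime_of_modEq hr2 hr₂)
  obtain ⟨P, hP, hPp, hPr⟩ := Nat.forall_exists_prime_gt_and_modEq B (mul_ne_zero h₁ h₂) hrc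
  exact ⟨P, hP, hPp, (hPr.of_mul_right _).trans hr1, (hPr.of_mul_left _).trans hr2⟩

/-- **Dirichlet + CRT**, three pairwise coprime moduli. -/
theorem exists_prime_gt_modEq_modEq_modEq (B : ℕ) {m₁ m₂ m₃ r₁ r₂ r₃ : ℕ} (h₁ : m₁ ≠ 0)
    (h₂ : m₂ ≠ 0) (h₃ : m₃ ≠ 0) (h12 : m₁.Coprime m₂) (h13 : m₁.Coprime m₃)
    (h23 : m₂.Coprime m₃) (hr₁ : r₁.Coprime m₁) (hr₂ : r₂.Coprime m₂) (hr₃ : r₃.Coprime m₃) :
    ∃ P, B < P ∧ P.Prime ∧ P ≡ r₁ [MOD m₁] ∧ P ≡ r₂ [MOD m₂] ∧ P ≡ r₃ [MOD m₃] := by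
  obtain ⟨r, hr1, hr2⟩ := Nat.chineseRemainder h12 r₁ r₂
  have hrc : r.Coprime (m₁ * m₂) :=
    Nat.Coprime.mul_right (coprime_of_modEq hr1 hr₁) (coprime_of_modEq hr2 hr₂)
  obtain ⟨P, hP, hPp, hPr, hP3⟩ := exists_prime_gt_modEq_modEq B (mul_ne_zero h₁ h₂) h₃
    (Nat.Coprime.mul_left h13 h23) hrc hr₃
  exact ⟨P, hP, hPp, (hPr.of_mul_right _).trans hr1, (hPr.of_mul_left _).trans hr2, hP3⟩

/-- **the prime of step (A3)**: a prime `c₀ > B` in a given unit class mod `a₀`, with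
`c₀ ≡ -1 mod M` and `c₀ ≡ 3 mod 4` when `M` is even. -/
theorem exists_prime_A3 (B : ℕ) {M a₀ κ : ℕ} (hM : 0 < M) (ha : 0 < a₀) (hc : a₀.Coprime M)
    (hκ : κ.Coprime a₀) :
    ∃ c₀, B < c₀ ∧ c₀.Prime ∧ c₀ ≡ κ [MOD a₀] ∧ M ∣ c₀ + 1 ∧ (2 ∣ M → c₀ % 4 = 3) := by
  by_cases h2 : 2 ∣ M
  · -- `a₀` is odd
    have hodd : a₀.Coprime 4 := by
      have h2' : a₀.Coprime 2 := Nat.Coprime.coprime_dvd_right h2 hc
      have : a₀.Coprime (2 * 2) := Nat.Coprime.mul_right h2' h2'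
      simpa using this
    have hc4 : a₀.Coprime (4 * M) := Nat.Coprime.mul_right hodd hc
    have hr : (4 * M - 1).Coprime (4 * M) := by
      have h1 : 1 ≤ 4 * M := by omega
      have : (4 * M - 1 + 1).Coprime (4 * M - 1) := by simp
      rw [Nat.sub_add_cancel h1] at this
      exact this.symm
    obtain ⟨P, hP, hPp, hP1, hP2⟩ := exists_prime_gt_modEq_modEq B (m₁ := a₀) (m₂ := 4 * M)
      (by omega) (by omega) hc4 hκ hr
    have hdvd : 4 * M ∣ P + 1 := by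
      have h1 : 1 ≤ 4 * M := by omega
      have : P + 1 ≡ 4 * M - 1 + 1 [MOD 4 * M] := Nat.ModEq.add_right 1 hP2
      rw [Nat.sub_add_cancel h1] at this
      exact (Nat.modEq_zero_iff_dvd).1 (this.trans (by simp [Nat.ModEq]))
    refine ⟨P, hP, hPp, hP1, Dvd.dvd.trans (Dvd.intro_left 4 rfl) hdvd, fun _ => ?_⟩
    have h4 : 4 ∣ P + 1 := Dvd.dvd.trans (Dvd.intro M rfl) hdvd
    omega
  · have hr : (M - 1).Coprime M := by
      have h1 : 1 ≤ M := hM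
      have : (M - 1 + 1).Coprime (M - 1) := by simp
      rw [Nat.sub_add_cancel h1] at this
      exact this.symm
    obtain ⟨P, hP, hPp, hP1, hP2⟩ := exists_prime_gt_modEq_modEq B (m₁ := a₀) (m₂ := M)
      (by omega) (by omega) hc hκ hr
    have hdvd : M ∣ P + 1 := by
      have h1 : 1 ≤ M := hM
      have : P + 1 ≡ M - 1 + 1 [MOD M] := Nat.ModEq.add_right 1 hP2
      rw [Nat.sub_add_cancel h1] at this
      exact (Nat.modEq_zero_iff_dvd).1 (this.trans (by simp [Nat.ModEq]))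
    exact ⟨P, hP, hPp, hP1, hdvd, fun h => absurd h h2⟩

/-- the order of a square mod the prime of (A3) is prime to `M` -/
theorem orderOf_sq_coprime {c₀ M e : ℕ} (hc₀ : c₀.Prime) (hM : M ∣ c₀ + 1)
    (h4 : 2 ∣ M → c₀ % 4 = 3) (he : e.Coprime c₀) :
    (orderOf ((e : ZMod c₀) ^ 2)).Coprime M := by
  have : Fact c₀.Prime := ⟨hc₀⟩
  have hne : (e : ZMod c₀) ≠ 0 := by
    intro h
    rw [ZMod.natCast_eq_zero_iff] at h
    have := Nat.Coprime.eq_one_of_dvd he.symm h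
    exact hc₀.one_lt.ne' this
  rcases hc₀.eq_two_or_odd with h2 | hodd
  · -- `c₀ = 2`
    subst h2
    have : (e : ZMod 2) = 1 := by
      have h := Fin.exists_fin_two.1 ⟨(e : ZMod 2), rfl⟩
      rcases h with h | h
      · exact absurd h hne
      · exact h
    rw [this]; simp
  · set k := (c₀ - 1) / 2 with hk
    have hc₀k : c₀ = 2 * k + 1 := by omega
    have hpow : ((e : ZMod c₀) ^ 2) ^ k = 1 := by
      rw [← pow_mul]
      have : 2 * k = c₀ - 1 := by omega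
      rw [this]
      exact ZMod.pow_card_sub_one_eq_one hne
    have hjk : orderOf ((e : ZMod c₀) ^ 2) ∣ k := orderOf_dvd_of_pow_eq_one hpow
    apply Nat.Coprime.symm
    apply Nat.coprime_of_dvd
    intro l hl hlM hlj
    have hlk : l ∣ k := hlj.trans hjk
    have hlc : l ∣ c₀ + 1 := hlM.trans hM
    have hl2 : l ∣ 2 := by
      have h1 : l ∣ 2 * k := Dvd.dvd.mul_left hlk 2
      have h2 : c₀ + 1 = 2 * k + 2 := by omega
      rw [h2] at hlc
      exact (Nat.dvd_add_right h1).1 hlc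
    have hl2' : l = 2 := (Nat.prime_dvd_prime_iff_eq hl Nat.prime_two).1 hl2
    subst hl2'
    have h3 := h4 hlM
    obtain ⟨t, ht⟩ := hlk
    omega

/-- geometric sums of a number `≡ 1 mod M` -/
lemma geom_sum_modEq {E M : ℕ} (hE : E ≡ 1 [MOD M]) (j : ℕ) :
    ∑ i ∈ range j, E ^ i ≡ j [MOD M] := by
  induction j with
  | zero => simp [Nat.ModEq]
  | succ j ih =>
    rw [sum_range_succ]
    have h1 : E ^ j ≡ 1 [MOD M] := by simpa using hE.pow j
    exact ih.add h1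

theorem geom_sum_coprime {E M j : ℕ} (hE : E ≡ 1 [MOD M]) (hj : j.Coprime M) :
    (∑ i ∈ range j, E ^ i).Coprime M :=
  coprime_of_modEq (geom_sum_modEq hE j) hj

/-- the `M`-primary part of `E` -/
theorem exists_Mpart_aux (M : ℕ) : ∀ E : ℕ, E ≠ 0 →
    ∃ L E', E = L * E' ∧ E'.Coprime M ∧ ∀ l, l.Prime → l ∣ L → l ∣ M := by
  intro E
  induction E using Nat.strong_induction_on with
  | _ E ih =>
    intro hE
    by_cases hcop : E.Coprime M
    · exact ⟨1, E, by simp, hcop, fun l hl h1 => absurd (Nat.dvd_one.1 h1) hl.one_lt.ne'⟩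
    · obtain ⟨l, hl, hlg⟩ := Nat.exists_prime_and_dvd hcop
      have hlE : l ∣ E := hlg.trans (Nat.gcd_dvd_left E M)
      have hlM : l ∣ M := hlg.trans (Nat.gcd_dvd_right E M)
      obtain ⟨E₁, rfl⟩ := hlE
      have hE₁ : E₁ ≠ 0 := by
        rintro rfl; simp at hE
      have hlt : E₁ < l * E₁ := by
        have := hl.one_lt
        nlinarith [Nat.pos_of_ne_zero hE₁]
      obtain ⟨L₁, E', h1, h2, h3⟩ := ih E₁ hlt hE₁
      refine ⟨l * L₁, E', by rw [h1]; ring, h2, ?_⟩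
      intro l' hl' hdvd
      rcases (Nat.Prime.dvd_mul hl').1 hdvd with h | h
      · rw [(Nat.prime_dvd_prime_iff_eq hl' hl).1 h]; exact hlM
      · exact h3 l' hl' h

theorem exists_Mpart {E M : ℕ} (hE : E ≠ 0) (hM : M ∣ E) :
    ∃ L E', E = L * E' ∧ E'.Coprime M ∧ M ∣ L ∧ ∀ l, l.Prime → l ∣ L → l ∣ M := by
  obtain ⟨L, E', h1, h2, h3⟩ := exists_Mpart_aux M E hE
  refine ⟨L, E', h1, h2, ?_, h3⟩
  rw [h1] at hM
  exact Nat.Coprime.dvd_of_dvd_mul_right h2.symm hM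

end Fermat.Agent.S41.CSPNum4
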