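/-
S41 / C4 [CSP] number theory of step (A3) (helper4), in `ℕ`:
for `q` prime, `M` prime to `q`, there is `L` (the `M`-primary part of `q^(2φ(M)) - 1`) with `M ∣ L`
such that for every odd prime `c₀ ∤ q` with `c₀ ≡ -1 mod M` (and `≡ 3 mod 4` if `M` is even) some
unit `η = q^k ≡ 1 mod M` satisfies `η² = 1 + (L c₀) R` with `R` prime to `M`.  Mathlib only.
-/
import Fermat.Agent.S41.CSPNum4.DirichletCRT

set_option autoImplicit false

namespace Fermat.Agent.S41.CSPNum4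

open Finset

/-- if all primes of `L` divide `M`, anything prime to `M` is prime to `L` -/
lemma coprime_of_primes_dvd {L M a : ℕ} (hL : ∀ l, l.Prime → l ∣ L → l ∣ M) (ha : a.Coprime M) :
    a.Coprime L := by
  apply Nat.coprime_of_dvd
  intro l hl hla hlL
  have h1 : l ∣ Nat.gcd a M := Nat.dvd_gcd hla (hL l hl hlL)
  rw [ha] at h1
  exact hl.one_lt.ne' (Nat.dvd_one.1 h1)

/-- `(c₀ - 1)/2` is prime to `M` for the prime of (A3) -/
lemma coprime_half_pred {c₀ M : ℕ} (hodd : c₀ % 2 = 1) (hM : M ∣ c₀ + 1)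
    (h4 : 2 ∣ M → c₀ % 4 = 3) : ((c₀ - 1) / 2).Coprime M := by
  set k := (c₀ - 1) / 2 with hk
  apply Nat.coprime_of_dvd
  intro l hl hlk hlM
  have hlc : l ∣ c₀ + 1 := hlM.trans hM
  have hl2 : l ∣ 2 := by
    have h1 : l ∣ 2 * k := Dvd.dvd.mul_left hlk 2
    have h2 : c₀ + 1 = 2 * k + 2 := by omega
    rw [h2] at hlc
    exact (Nat.dvd_add_right h1).1 hlc
  have hl2' : l = 2 := (Nat.prime_dvd_prime_iff_eq hl Nat.prime_two).1 hl2
  subst hl2'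
  have h3 := h4 hlM
  obtain ⟨t, ht⟩ := hlk
  omega

/-- the prime of (A3) does not divide `M` -/
lemma not_dvd_of_dvd_succ {c₀ M : ℕ} (hc₀ : c₀.Prime) (hM : M ∣ c₀ + 1) : ¬ c₀ ∣ M := by
  intro h
  have h1 : c₀ ∣ c₀ + 1 := h.trans hM
  have h2 : c₀ ∣ 1 := (Nat.dvd_add_right (dvd_refl c₀)).1 h1
  exact hc₀.one_lt.ne' (Nat.dvd_one.1 h2)

/-- **the unit `η` of step (A3)**. -/
theorem exists_eta_of_Mpart {q M L E' : ℕ} (hMq : M.Coprime q)
    (hE : (q ^ Nat.totient M) ^ 2 = 1 + L * E') (hE' : E'.Coprime M)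
    (hL : ∀ l, l.Prime → l ∣ L → l ∣ M)
    {c₀ : ℕ} (hc₀ : c₀.Prime) (h2 : 2 < c₀) (hc₀q : c₀.Coprime q) (hc₀M : M ∣ c₀ + 1)
    (h4 : 2 ∣ M → c₀ % 4 = 3) :
    ∃ k R : ℕ, q ^ k ≡ 1 [MOD M] ∧ (q ^ k) ^ 2 = 1 + L * c₀ * R ∧ R.Coprime M := by
  have hfact : Fact c₀.Prime := ⟨hc₀⟩
  set e₀ := q ^ Nat.totient M with he₀
  have he₀M : e₀ ≡ 1 [MOD M] := Nat.ModEq.pow_totient hMq.symm
  have hodd : c₀ % 2 = 1 := by
    rcases hc₀.eq_two_or_odd with h | h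
    · omega
    · exact h
  set j := (c₀ - 1) / 2 with hj
  have hjM : j.Coprime M := coprime_half_pred hodd hc₀M h4
  have h2j : 2 * j = c₀ - 1 := by omega
  -- the geometric sum
  set S := ∑ i ∈ range j, (e₀ ^ 2) ^ i with hS
  have hSM : S.Coprime M := by
    apply geom_sum_coprime _ hjM
    simpa using he₀M.pow 2
  -- `η² = 1 + L E' S`
  have hgeom : (e₀ ^ 2) ^ j = 1 + L * E' * S := by
    have h1 : (((e₀ ^ 2) ^ j : ℕ) : ℤ) - 1 = ((S : ℕ) : ℤ) * (((e₀ ^ 2 : ℕ) : ℤ) - 1) := by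
      rw [hS]; push_cast
      exact (geom_sum_mul _ _).symm
    have h2 : (((e₀ ^ 2 : ℕ) : ℤ) - 1) = ((L * E' : ℕ) : ℤ) := by
      rw [hE]; push_cast; ring
    rw [h2] at h1
    have h3 : (((e₀ ^ 2) ^ j : ℕ) : ℤ) = ((1 + L * E' * S : ℕ) : ℤ) := by
      push_cast at h1 ⊢; linarith
    exact_mod_cast h3
  -- Fermat
  have hferm : c₀ ∣ L * E' * S := by
    have hne : ((e₀ : ℕ) : ZMod c₀) ≠ 0 := by
      intro h
      rw [ZMod.natCast_eq_zero_iff] at h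
      have hcop : c₀.Coprime e₀ := Nat.Coprime.pow_right _ hc₀q
      exact hc₀.one_lt.ne' (Nat.Coprime.eq_one_of_dvd hcop h)
    have h1 : ((e₀ : ℕ) : ZMod c₀) ^ (c₀ - 1) = 1 := ZMod.pow_card_sub_one_eq_one hne
    have h2' : (((e₀ ^ 2) ^ j : ℕ) : ZMod c₀) = 1 := by
      push_cast; rw [← pow_mul, h2j]; exact h1
    rw [hgeom] at h2'
    push_cast at h2'
    have h3 : ((L * E' * S : ℕ) : ZMod c₀) = 0 := by
      push_cast; linear_combination h2'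
    exact (ZMod.natCast_eq_zero_iff _ _).1 h3
  have hc₀L : c₀.Coprime L := by
    apply coprime_of_primes_dvd hL
    exact (Nat.Prime.coprime_iff_not_dvd hc₀).2 (not_dvd_of_dvd_succ hc₀ hc₀M)
  have hdvd : c₀ ∣ E' * S := by
    rw [mul_assoc] at hferm
    exact Nat.Coprime.dvd_of_dvd_mul_left hc₀L hferm
  obtain ⟨R, hR⟩ := hdvd
  refine ⟨Nat.totient M * j, R, ?_, ?_, ?_⟩
  · rw [pow_mul]; simpa using he₀M.pow j
  · rw [pow_mul, ← he₀, ← pow_mul, mul_comm j 2, pow_mul, hgeom, mul_assoc L E' S, hR]; ring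
  · have h1 : (E' * S).Coprime M := Nat.Coprime.mul_left hE' hSM
    rw [hR] at h1
    exact Nat.Coprime.coprime_mul_left h1

/-- **step (A3), arithmetic package**: the level `L` and the units `η`. -/
theorem exists_level_data {q M : ℕ} (hq : q.Prime) (hM : 0 < M) (hMq : M.Coprime q) :
    ∃ L : ℕ, 0 < L ∧ M ∣ L ∧ (∀ l, l.Prime → l ∣ L → l ∣ M) ∧
      ∀ c₀ : ℕ, c₀.Prime → 2 < c₀ → c₀.Coprime q → M ∣ c₀ + 1 → (2 ∣ M → c₀ % 4 = 3) →
        ∃ k R : ℕ, q ^ k ≡ 1 [MOD M] ∧ (q ^ k) ^ 2 = 1 + L * c₀ * R ∧ R.Coprime M := by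
  set e₀ := q ^ Nat.totient M with he₀
  have he₀M : e₀ ≡ 1 [MOD M] := Nat.ModEq.pow_totient hMq.symm
  have he₀2 : 2 ≤ e₀ := by
    have h1 : 0 < Nat.totient M := Nat.totient_pos.2 hM
    calc 2 ≤ q := hq.two_le
      _ = q ^ 1 := (pow_one q).symm
      _ ≤ q ^ Nat.totient M := Nat.pow_le_pow_right hq.pos h1
  have hE0 : e₀ ^ 2 - 1 ≠ 0 := by
    have : 4 ≤ e₀ ^ 2 := by nlinarith
    omega
  have hME : M ∣ e₀ ^ 2 - 1 := by
    have h1 : e₀ ^ 2 ≡ 1 [MOD M] := by simpa using he₀M.pow 2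
    exact (Nat.modEq_iff_dvd' (by nlinarith)).1 h1.symm
  obtain ⟨L, E', h1, h2, h3, h4⟩ := exists_Mpart hE0 hME
  have hL0 : 0 < L := by
    rcases Nat.eq_zero_or_pos L with h | h
    · rw [h, zero_mul] at h1; exact absurd h1 hE0
    · exact h
  refine ⟨L, hL0, h3, h4, ?_⟩
  intro c₀ hc₀ h2c hc₀q hc₀M h4c
  have hE : (q ^ Nat.totient M) ^ 2 = 1 + L * E' := by
    rw [← he₀, ← h1]
    have : 1 ≤ e₀ ^ 2 := by nlinarith
    omega
  exact exists_eta_of_Mpart hMq hE h2 h4 hc₀ h2c hc₀q hc₀M h4c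

end Fermat.Agent.S41.CSPNum4
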