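/-
S41 / C4 [CSP] (helper4): the number-theoretic input `CSP11.NTInput q M` of STEP A, proved from the
`ℕ`-level package `CSPNum4.exists_level_data` / `exists_prime_A3` through the reduction maps
`AwayRed98.redA : ℤ[1/q] → ℤ/n`.
-/
import Fermat.Agent.S41.CSP11.StepA
import Fermat.Agent.S41.AwayRed98.Basic
import Fermat.Agent.S41.CSPNum4.Eta

set_option autoImplicit false

namespace Fermat.Agent.S41.CSPNum4

open Fermat.Agent.S41.Amalgam95 Fermat.Agent.S41.Ihara95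

/-- a nonzero element of `ℤ[1/q]` is a unit times a positive integer prime to `q` -/
lemma exists_unit_mul_nat {q : ℕ} (hq : q.Prime) {a : ℚ} (ha : IsAway q a) (ha0 : a ≠ 0) :
    ∃ (a₀ : ℕ) (ε : ℚ), 0 < a₀ ∧ a₀.Coprime q ∧ ε ≠ 0 ∧ IsAway q ε ∧ IsAway q ε⁻¹ ∧
      a = ε * a₀ := by
  obtain ⟨n, m, h⟩ := ha
  have hq0 : (q : ℚ) ≠ 0 := by exact_mod_cast hq.ne_zero
  have hqn : (q : ℚ) ^ n ≠ 0 := pow_ne_zero _ hq0
  have hm0 : m ≠ 0 := by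
    rintro rfl
    have : a * (q : ℚ) ^ n = 0 := by simpa using h
    rcases mul_eq_zero.1 this with h1 | h1
    · exact ha0 h1
    · exact hqn h1
  have hN : m.natAbs ≠ 0 := Int.natAbs_ne_zero.2 hm0
  obtain ⟨ν, a₀, hnd, hNeq⟩ := Nat.exists_eq_pow_mul_and_not_dvd hN q hq.ne_one
  have ha₀pos : 0 < a₀ := by
    rcases Nat.eq_zero_or_pos a₀ with h0 | h0
    · rw [h0, mul_zero] at hNeq; exact absurd hNeq hN
    · exact h0
  have hcop : a₀.Coprime q := ((Nat.Prime.coprime_iff_not_dvd hq).2 hnd).symm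
  have hqν : (q : ℚ) ^ ν ≠ 0 := pow_ne_zero _ hq0
  have ha₀q : (a₀ : ℚ) ≠ 0 := by exact_mod_cast ha₀pos.ne'
  have haeq : a = (m : ℚ) / (q : ℚ) ^ n := by rw [← h]; field_simp
  rcases Int.natAbs_eq m with hm | hm
  · -- `m = q^ν a₀`
    have hmq : (m : ℚ) = (q : ℚ) ^ ν * a₀ := by
      rw [hm, hNeq]; push_cast; ring
    refine ⟨a₀, (q : ℚ) ^ ν / (q : ℚ) ^ n, ha₀pos, hcop, div_ne_zero hqν hqn,
      ⟨n, (q : ℤ) ^ ν, by push_cast; field_simp⟩, ⟨ν, (q : ℤ) ^ n, by push_cast; field_simp⟩, ?_⟩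
    rw [haeq, hmq]; field_simp
  · have hmq : (m : ℚ) = -((q : ℚ) ^ ν * a₀) := by
      rw [hm, hNeq]; push_cast; ring
    refine ⟨a₀, -((q : ℚ) ^ ν / (q : ℚ) ^ n), ha₀pos, hcop, neg_ne_zero.2 (div_ne_zero hqν hqn),
      ⟨n, -(q : ℤ) ^ ν, by push_cast; field_simp⟩, ⟨ν, -(q : ℤ) ^ n, by push_cast; field_simp⟩, ?_⟩
    rw [haeq, hmq]; field_simp

open Fermat.Agent.S41.AwayRed98 in
/-- **the number-theoretic input of STEP A.** -/
theorem ntInput (q M : ℕ) (hq : q.Prime) (hM : 0 < M) (hMq : M.Coprime q) :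
    Fermat.Agent.S41.CSP11.NTInput q M := by
  obtain ⟨L, hL0, hML, hLp, hdata⟩ := exists_level_data hq hM hMq
  obtain ⟨L₁, rfl⟩ := hML
  intro a c₁ ha hc ha1 hxy
  by_cases hM1 : M = 1
  · subst hM1
    refine ⟨0, 1, 0, IsAway.zero, one_ne_zero, IsAway.one, by simpa using IsAway.one (q := q),
      ⟨0, IsAway.zero, by simp⟩, IsAway.zero, by simp, ?_⟩
    intro t ht
    exact ⟨0, ⟨t, ht, by simp⟩⟩
  have hqM : Nat.Coprime q M := hMq.symm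
  have hMne : NeZero M := ⟨hM.ne'⟩
  -- `a ≠ 0`
  have ha0 : a ≠ 0 := by
    rintro rfl
    have h1 : redA M ((0 : ℚ) - 1) = 0 :=
      (redA_eq_zero_iff hqM (IsAway.zero.sub IsAway.one)).2 ha1
    rw [redA_sub hqM IsAway.zero IsAway.one, redA_zero hqM, redA_one hqM] at h1
    have h2 : ((1 : ℕ) : ZMod M) = 0 := by
      have : (1 : ZMod M) = 0 := by linear_combination -h1
      simpa using this
    have h3 : M ∣ 1 := (ZMod.natCast_eq_zero_iff 1 M).1 h2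
    exact hM1 (Nat.dvd_one.1 h3)
  obtain ⟨a₀, ε, ha₀pos, ha₀q, hε0, hε, hεinv, rfl⟩ := exists_unit_mul_nat hq ha ha0
  have hqa : Nat.Coprime q a₀ := ha₀q.symm
  have ha₀ne : NeZero a₀ := ⟨ha₀pos.ne'⟩
  have hAa₀ : IsAway q (a₀ : ℚ) := AwayRed98.isAway_natCast q a₀
  -- `red a = 0` mod `a₀`
  have hreda : redA a₀ (ε * (a₀ : ℚ)) = 0 :=
    (redA_eq_zero_iff hqa (hε.mul hAa₀)).2 ⟨ε, hε, by ring⟩
  -- `c₁` is a unit mod `a₀`
  obtain ⟨x, y, hx, hy, hxy⟩ := hxy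
  have hc₁unit : redA a₀ y * redA a₀ c₁ = 1 := by
    have h1 : redA a₀ (x * (ε * (a₀ : ℚ)) + y * c₁) = 1 := by rw [hxy, redA_one hqa]
    rw [redA_add hqa (hx.mul (hε.mul hAa₀)) (hy.mul hc), redA_mul hqa hx (hε.mul hAa₀),
      redA_mul hqa hy hc, hreda, mul_zero, zero_add] at h1
    exact h1
  -- `M` is a unit mod `a₀`
  have hMa₀ : a₀.Coprime M := by
    obtain ⟨r, hr, hreq⟩ := ha1
    have h1 : redA a₀ (ε * (a₀ : ℚ) - 1) = redA a₀ ((M : ℚ) * r) := by rw [hreq]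
    rw [redA_sub hqa (hε.mul hAa₀) IsAway.one, hreda, redA_one hqa,
      redA_mul hqa (AwayRed98.isAway_natCast q M) hr, redA_natCast hqa] at h1
    have h2 : ((M : ℕ) : ZMod a₀) * (- redA a₀ r) = 1 := by linear_combination h1
    have h3 : IsUnit ((M : ℕ) : ZMod a₀) := IsUnit.of_mul_eq_one _ h2
    exact ((ZMod.isUnit_iff_coprime M a₀).1 h3).symm
  have hL₁a₀ : L₁.Coprime a₀ := by
    have h1 : a₀.Coprime (M * L₁) := coprime_of_primes_dvd hLp hMa₀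
    exact (Nat.Coprime.coprime_mul_left_right h1).symm
  have hL₁unit : IsUnit ((L₁ : ℕ) : ZMod a₀) := (ZMod.isUnit_iff_coprime L₁ a₀).2 hL₁a₀
  have hc₁unit' : IsUnit (redA a₀ c₁) := IsUnit.of_mul_eq_one _ (by rw [mul_comm]; exact hc₁unit)
  -- the class `κ`
  set x₀ : ZMod a₀ := redA a₀ c₁ * ((L₁ : ℕ) : ZMod a₀)⁻¹ with hx₀
  have hx₀unit : IsUnit x₀ := by
    refine hc₁unit'.mul ?_
    exact IsUnit.of_mul_eq_one _ (by rw [mul_comm]; exact ZMod.mul_inv_of_unit _ hL₁unit)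
  have hκ : (x₀.val).Coprime a₀ := by
    have := ZMod.val_coe_unit_coprime hx₀unit.unit
    simpa using this
  obtain ⟨c₀, hc₀B, hc₀p, hc₀κ, hc₀M, hc₀4⟩ :=
    exists_prime_A3 (max 2 q) hM ha₀pos hMa₀ hκ
  have hc₀2 : 2 < c₀ := lt_of_le_of_lt (le_max_left 2 q) hc₀B
  have hc₀q : c₀.Coprime q := by
    have hne : c₀ ≠ q := by
      have : q < c₀ := lt_of_le_of_lt (le_max_right 2 q) hc₀B
      omega
    exact (Nat.coprime_primes hc₀p hq).2 hne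
  obtain ⟨k, R, hk1, hk2, hRM⟩ := hdata c₀ hc₀p hc₀2 hc₀q hc₀M hc₀4
  -- `c₀ = x₀` mod `a₀`
  have hc₀x₀ : ((c₀ : ℕ) : ZMod a₀) = x₀ := by
    rw [(ZMod.natCast_eq_natCast_iff c₀ x₀.val a₀).2 hc₀κ, ZMod.natCast_zmod_val]
  -- `L₁ c₀ - c₁ ∈ a₀ ℤ[1/q]`
  have hAL₁c₀ : IsAway q ((L₁ : ℚ) * (c₀ : ℚ)) :=
    (AwayRed98.isAway_natCast q L₁).mul (AwayRed98.isAway_natCast q c₀)
  have hcz : IsCongZero q a₀ ((L₁ : ℚ) * (c₀ : ℚ) - c₁) := by
    rw [← redA_eq_zero_iff hqa (hAL₁c₀.sub hc), redA_sub hqa hAL₁c₀ hc,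
      redA_mul hqa (AwayRed98.isAway_natCast q L₁) (AwayRed98.isAway_natCast q c₀),
      redA_natCast hqa, redA_natCast hqa, hc₀x₀, hx₀]
    have := ZMod.mul_inv_of_unit _ hL₁unit
    linear_combination (redA a₀ c₁) * this
  obtain ⟨r, hr, hreq⟩ := hcz
  -- the data
  have hq0 : (q : ℚ) ≠ 0 := by exact_mod_cast hq.ne_zero
  refine ⟨r * ε⁻¹, (q : ℚ) ^ k, (R : ℚ), hr.mul hεinv, pow_ne_zero _ hq0,
    AwayRed98.isAway_pow (AwayRed98.isAway_natCast q q) k, ?_, ?_, AwayRed98.isAway_natCast q R,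
    ?_, ?_⟩
  · exact ⟨k, 1, by rw [inv_mul_cancel₀ (pow_ne_zero _ hq0)]; simp⟩
  · -- `η ≡ 1`
    have h1 : (M : ℤ) ∣ ((q ^ k : ℕ) : ℤ) - 1 := by
      have := (Nat.modEq_iff_dvd.1 hk1.symm)
      simpa using this
    have h2 : IsCongZero q M ((q : ℚ) ^ k - 1) := by
      have := isCongZero_of_int_dvd q M _ h1
      simpa using this
    exact h2
  · -- `η² = 1 + M (c₁ + s a) s₂`
    have h1 : c₁ + r * ε⁻¹ * (ε * (a₀ : ℚ)) = (L₁ : ℚ) * (c₀ : ℚ) := by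
      have : r * ε⁻¹ * (ε * (a₀ : ℚ)) = (a₀ : ℚ) * r := by field_simp
      rw [this, ← hreq]; ring
    rw [h1]
    have h2 : (((q ^ k) ^ 2 : ℕ) : ℚ) = ((1 + M * L₁ * c₀ * R : ℕ) : ℚ) := by rw [hk2]
    push_cast at h2
    rw [h2]; ring
  · -- the last clause
    intro t ht
    have hRunit : IsUnit ((R : ℕ) : ZMod M) := (ZMod.isUnit_iff_coprime R M).2 hRM
    have hreda1 : redA M (ε * (a₀ : ℚ)) = 1 := by
      have := (redA_eq_iff hqM (hε.mul hAa₀) IsAway.one).2 ha1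
      rw [this, redA_one hqM]
    refine ⟨(redA M t * ((R : ℕ) : ZMod M)⁻¹).val, ?_⟩
    have hAi : IsAway q (((redA M t * ((R : ℕ) : ZMod M)⁻¹).val : ℕ) : ℚ) :=
      AwayRed98.isAway_natCast q _
    have hAR : IsAway q ((R : ℚ) * (ε * (a₀ : ℚ))) :=
      (AwayRed98.isAway_natCast q R).mul (hε.mul hAa₀)
    show IsCongZero q M _
    rw [← redA_eq_zero_iff hqM (ht.sub (hAi.mul hAR)), redA_sub hqM ht (hAi.mul hAR),
      redA_mul hqM hAi hAR, redA_mul hqM (AwayRed98.isAway_natCast q R) (hε.mul hAa₀),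
      redA_natCast hqM, redA_natCast hqM, hreda1, ZMod.natCast_zmod_val]
    have := ZMod.inv_mul_of_unit _ hRunit
    linear_combination (- redA M t) * this

end Fermat.Agent.S41.CSPNum4
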